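import Fermat.Agent.Root.SummaryConductorDiscriminant
import Fermat.Agent.CycloGrowth.AnyConductorFormula

/-!
# The characters of an abelian field and of its real subfield

For an abelian CM field `F` the residues of the zeta functions and the discriminants of `F` and `F⁺` differ by
the `L`-values, resp. the conductors, of `[F : ℚ]/2` characters; together with `|d⁺|² ≤ |d|`.
-/

set_option autoImplicit false
set_option linter.style.haveILetI false

noncomputable section

open NumberField DirichletCharacter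
open scoped Classical

namespace FA.ConductorDiscr

/-- **The residue and the discriminant of an abelian field by one set of characters.** -/
theorem exists_chars (F : Type*) [Field F] [NumberField F] [IsAbelianGalois ℚ F] :
    ∃ (n : ℕ) (_ : NeZero n) (X : Finset (DirichletCharacter ℂ n)),
      1 ∈ X ∧ X.card = Module.finrank ℚ F ∧
      (dedekindZeta_residue F : ℂ) = ∏ χ ∈ X.erase 1, LFunction χ.primitiveCharacter 1 ∧
      (discr F).natAbs = ∏ χ ∈ X.erase 1, χ.conductor := by
  obtain ⟨n, hn, X, hc, hz, hd⟩ := FA.Summary.conductor_discriminant_abelian F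
  refine ⟨n, hn, (X : Set (DirichletCharacter ℂ n)).toFinite.toFinset,
    (Set.Finite.mem_toFinset _).mpr X.one_mem, ?_,
    FA.AbelianZeta.residue_eq_prod ((Set.Finite.mem_toFinset _).mpr X.one_mem) hz, ?_⟩
  · rw [← hc, ← Nat.card_eq_finsetCard]
    exact Nat.card_congr (Equiv.subtypeEquivRight fun χ => Set.Finite.mem_toFinset _)
  · rw [hd]
    exact (Finset.prod_erase _ conductor_one).symm

/-- The zeta function of a field isomorphic to a subfield of `ℚ(ζ_n)`. -/
theorem dedekindZeta_eq_prodL {n : ℕ} [NeZero n] (K : Type*) [Field K] [NumberField K]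
    [IsCyclotomicExtension {n} ℚ K] [IsAbelianGalois ℚ K] (E : IntermediateField ℚ K) {F : Type*} [Field F]
    [NumberField F] (e : F ≃+* E) {s : ℂ} (hs : 1 < s.re) :
    dedekindZeta F s =
      FA.AbelianZeta.prodL (Finset.univ.filter fun χ => χ ∈ FA.AbelianZeta.fieldChars n K E) s := by
  let _ : Fintype (FA.AbelianZeta.fieldChars n K E) := Fintype.ofFinite _
  rw [FA.AbelianZeta.dedekindZeta_congr e, FA.AbelianZeta.dedekindZeta_eq_prod n K E hs]
  exact Finset.prod_bij (fun χ _ => χ.1) (fun χ _ => Finset.mem_filter.mpr ⟨Finset.mem_univ _, χ.2⟩)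
    (fun _ _ _ _ h => Subtype.ext h)
    (fun χ hχ => ⟨⟨χ, (Finset.mem_filter.mp hχ).2⟩, Finset.mem_univ _, rfl⟩) fun _ _ => rfl

/-- Its degree. -/
theorem card_chars_eq {n : ℕ} [NeZero n] (K : Type*) [Field K] [NumberField K]
    [IsCyclotomicExtension {n} ℚ K] [IsAbelianGalois ℚ K] (E : IntermediateField ℚ K) {F : Type*} [Field F]
    [NumberField F] (e : F ≃+* E) :
    (Finset.univ.filter fun χ => χ ∈ FA.AbelianZeta.fieldChars n K E).card = Module.finrank ℚ F := by
  rw [(AlgEquiv.ofRingEquiv (f := e) fun x => by simp : F ≃ₐ[ℚ] E).toLinearEquiv.finrank_eq,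
    ← IsCyclotomicExtension.Rat.card_intermediateFieldEquivSubgroupChar n K ℂ E, ← Nat.card_eq_finsetCard]
  exact Nat.card_congr (Equiv.subtypeEquivRight fun χ => by
    simp only [Finset.mem_filter, Finset.mem_univ, true_and, FA.AbelianZeta.fieldChars])

/-- Its discriminant. -/
theorem discr_eq_prod {n : ℕ} [NeZero n] (K : Type*) [Field K] [NumberField K]
    [IsCyclotomicExtension {n} ℚ K] [IsAbelianGalois ℚ K] (E : IntermediateField ℚ K) {F : Type*} [Field F]
    [NumberField F] (e : F ≃+* E) :
    (discr F).natAbs = ∏ χ ∈ Finset.univ.filter (fun χ => χ ∈ FA.AbelianZeta.fieldChars n K E), χ.conductor := by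
  rw [discr_eq_discr_of_ringEquiv _ e, FA.Summary.conductor_discriminant n K E]
  exact Finset.prod_congr (by
    ext χ
    simp only [Set.Finite.mem_toFinset, SetLike.mem_coe, Finset.mem_filter, Finset.mem_univ, true_and]) fun _ _ => rfl

set_option backward.isDefEq.respectTransparency false in
/-- **The odd characters of an abelian CM field.** -/
theorem exists_oddChars (F : Type*) [Field F] [NumberField F] [IsAbelianGalois ℚ F] [IsCMField F] :
    ∃ (n : ℕ) (_ : NeZero n) (O : Finset (DirichletCharacter ℂ n)),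
      (∀ χ ∈ O, χ ≠ 1) ∧ 2 * O.card = Module.finrank ℚ F ∧
      (∏ χ ∈ O, LFunction χ.primitiveCharacter 1) * (dedekindZeta_residue (maximalRealSubfield F) : ℂ) =
        (dedekindZeta_residue F : ℂ) ∧
      (discr F).natAbs = (∏ χ ∈ O, χ.conductor) * (discr (maximalRealSubfield F)).natAbs := by
  obtain ⟨n, hn, ⟨f⟩⟩ := FA.Summary.kroneckerWeber_cyclotomicField F
  haveI : NeZero n := ⟨hn.ne'⟩
  haveI : NeZero (n : ℚ) := ⟨Nat.cast_ne_zero.mpr hn.ne'⟩
  let K := CyclotomicField n ℚ
  haveI : IsCyclotomicExtension {n} ℚ K := CyclotomicField.isCyclotomicExtension n ℚ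
  haveI : IsAbelianGalois ℚ K := IsCyclotomicExtension.isAbelianGalois {n} ℚ K
  letI : Algebra F K := f.toRingHom.toAlgebra
  haveI : IsTotallyComplex K := isTotallyComplex_of_algebra F K
  let E : IntermediateField ℚ K := f.fieldRange
  let E' : IntermediateField ℚ K := E ⊓ FA.CycloGrowth.plusField K
  let e : F ≃+* E := (AlgEquiv.ofInjectiveField f).toRingEquiv
  have hmem : ∀ x : F, x ∈ maximalRealSubfield F ↔ f x ∈ maximalRealSubfield K := fun x => by
    rw [mem_maximalRealSubfield_iff, mem_maximalRealSubfield_iff]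
    refine ⟨fun h φ => h (φ.comp f.toRingHom), fun h ψ => ?_⟩
    rw [← ComplexEmbedding.lift_comp_algebraMap K ψ]
    exact h (ComplexEmbedding.lift K ψ)
  let e' : maximalRealSubfield F ≃+* E' := RingEquiv.ofBijective
    ({ toFun := fun x => ⟨f x, ⟨x.1, rfl⟩, (hmem x.1).mp x.2⟩
       map_one' := Subtype.ext (map_one f)
       map_mul' := fun x y => Subtype.ext (map_mul f x.1 y.1)
       map_zero' := Subtype.ext (map_zero f)
       map_add' := fun x y => Subtype.ext (map_add f x.1 y.1) } : maximalRealSubfield F →+* E')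
    ⟨fun x y h => Subtype.ext (f.toRingHom.injective (congrArg Subtype.val h)), fun y => by
      obtain ⟨⟨x, hx⟩, hy⟩ := y.2
      exact ⟨⟨x, (hmem x).mpr (show f x ∈ maximalRealSubfield K from hx.symm ▸ hy)⟩, Subtype.ext hx⟩⟩
  set X := Finset.univ.filter fun χ => χ ∈ FA.AbelianZeta.fieldChars n K E with hX
  set X' := Finset.univ.filter fun χ => χ ∈ FA.AbelianZeta.fieldChars n K E' with hX'
  have hXX : X' = X.filter fun χ => χ.Even := by
    ext χ
    simp only [hX, hX', E', Finset.mem_filter, Finset.mem_univ, true_and, FA.AbelianZeta.fieldChars, map_inf,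
      Subgroup.mem_inf]
    exact and_congr_right fun _ => FA.CycloGrowth.mem_fieldChars_plusField n K χ
  have h1 : (1 : DirichletCharacter ℂ n) ∈ X' := Finset.mem_filter.mpr ⟨Finset.mem_univ _, Subgroup.one_mem _⟩
  have hsub : X' ⊆ X := hXX ▸ Finset.filter_subset _ _
  refine ⟨n, inferInstance, X \ X', fun χ hχ e => (Finset.mem_sdiff.mp hχ).2 (e ▸ h1), ?_, ?_, ?_⟩
  · have h2 := Module.finrank_mul_finrank ℚ (maximalRealSubfield F) F
    rw [Algebra.IsQuadraticExtension.finrank_eq_two (maximalRealSubfield F) F] at h2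
    have h3 := Finset.card_sdiff_add_card_eq_card hsub
    rw [card_chars_eq K E e, card_chars_eq K E' e'] at h3
    omega
  · rw [FA.AbelianZeta.residue_eq_prod h1 fun s hs => dedekindZeta_eq_prodL K E' e' hs,
      FA.AbelianZeta.residue_eq_prod (hsub h1) fun s hs => dedekindZeta_eq_prodL K E e hs,
      ← Finset.prod_sdiff (Finset.erase_subset_erase 1 hsub)]
    congr 1
    exact Finset.prod_congr (by
      ext χ
      simp only [Finset.mem_sdiff, Finset.mem_erase]
      exact ⟨fun h => ⟨⟨fun e => h.2 (e ▸ h1), h.1⟩, fun h' => h.2 h'.2⟩,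
        fun h => ⟨h.1.2, fun h' => h.2 ⟨h.1.1, h'⟩⟩⟩) fun _ _ => rfl
  · rw [discr_eq_prod (n := n) K E e, discr_eq_prod (n := n) K E' e', Finset.prod_sdiff hsub]

end FA.ConductorDiscr
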