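import Fermat.Agent.ConductorDiscr.PlusPart
import Fermat.Agent.CycloGrowth.LogValueBounds

/-!
# The logarithms of the class number formulas of an abelian field

* `|log (h R) - log √|d|| ≤ [F : ℚ] C(ε) + ε log |d|` for every abelian `F`.
* For an abelian CM field `h/h⁺` is at least the product of `c f(χ)^(1/4)` over the odd characters.
-/

set_option autoImplicit false

noncomputable section

open NumberField DirichletCharacter
open scoped Classical Real

namespace FA.ConductorDiscr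

/-- `n ≤ 2 φ(n)²`, and without the factor for odd `n`. -/
theorem le_gcd_two_mul_totient_sq (n : ℕ) : n ≤ n.gcd 2 * n.totient ^ 2 := by
  induction n using Nat.recOnPosPrimePosCoprime with
  | zero => exact Nat.zero_le _
  | one => simp
  | prime_pow p k hp hk =>
    obtain ⟨j, rfl⟩ : ∃ j, k = j + 1 := ⟨k - 1, by omega⟩
    rw [Nat.totient_prime_pow_succ hp, pow_succ]
    have hle : p ^ j ≤ (p ^ j) ^ 2 := Nat.le_self_pow two_ne_zero _
    rcases hp.eq_two_or_odd' with rfl | hodd
    · rw [Nat.gcd_eq_right (dvd_mul_left 2 _), show (2 : ℕ) - 1 = 1 from rfl, mul_one]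
      calc 2 ^ j * 2 ≤ (2 ^ j) ^ 2 * 2 := Nat.mul_le_mul_right _ hle
        _ = _ := mul_comm _ _
    · rw [show (p ^ j * p).gcd 2 = 1 from Nat.Coprime.symm ((Nat.coprime_two_left).mpr
        (by rw [← pow_succ]; exact hodd.pow)), one_mul, mul_pow]
      refine Nat.mul_le_mul hle ?_
      obtain ⟨i, rfl⟩ := hodd
      have := hp.two_le
      rw [Nat.add_sub_cancel, pow_two]
      have : 1 ≤ i := by omega
      nlinarith
  | coprime a b ha hb hab hfa hfb =>
    rw [Nat.totient_mul hab, mul_pow, Nat.gcd_comm, Nat.Coprime.gcd_mul _ hab, Nat.gcd_comm 2 a, Nat.gcd_comm 2 b]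
    calc a * b ≤ (a.gcd 2 * a.totient ^ 2) * (b.gcd 2 * b.totient ^ 2) := Nat.mul_le_mul hfa hfb
      _ = _ := by ring

/-- Few roots of unity. -/
theorem torsionOrder_le (F : Type*) [Field F] [NumberField F] :
    Units.torsionOrder F ≤ 2 * Module.finrank ℚ F ^ 2 := by
  obtain ⟨μ, hμ⟩ := IsCyclic.exists_ofOrder_eq_natCard (α := Units.torsion F)
  rw [← IsPrimitiveRoot.iff_orderOf, ← IsPrimitiveRoot.coe_submonoidClass_iff,
    ← IsPrimitiveRoot.coe_units_iff] at hμ
  have h2 := hμ.map_of_injective (FaithfulSMul.algebraMap_injective (𝓞 F) F)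
  have h3 := minpoly.natDegree_le (A := ℚ) (algebraMap (𝓞 F) F ((μ.1 : (𝓞 F)ˣ) : 𝓞 F))
  rw [← Polynomial.cyclotomic_eq_minpoly_rat h2 (Units.torsionOrder_pos F), Polynomial.natDegree_cyclotomic] at h3
  calc Units.torsionOrder F ≤ _ := le_gcd_two_mul_totient_sq _
    _ ≤ 2 * Module.finrank ℚ F ^ 2 :=
        Nat.mul_le_mul (Nat.le_of_dvd two_pos (Nat.gcd_dvd_right _ _)) (Nat.pow_le_pow_left h3 2)

/-- Its logarithm. -/
theorem log_torsionOrder_le (F : Type*) [Field F] [NumberField F] :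
    Real.log (Units.torsionOrder F : ℝ) ≤ 3 * Module.finrank ℚ F := by
  have hw : (0 : ℝ) < Units.torsionOrder F := by exact_mod_cast Units.torsionOrder_pos F
  have hN : (1 : ℝ) ≤ (Module.finrank ℚ F : ℝ) := by exact_mod_cast Module.finrank_pos
  have h := Real.log_le_log hw (show (Units.torsionOrder F : ℝ) ≤ 2 * (Module.finrank ℚ F : ℝ) ^ 2 by
    exact_mod_cast torsionOrder_le F)
  rw [Real.log_mul two_ne_zero (by positivity), Real.log_pow, Nat.cast_ofNat] at h
  have h1 := Real.log_le_sub_one_of_pos (show (0 : ℝ) < Module.finrank ℚ F by linarith)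
  have h2 := Real.log_le_sub_one_of_pos (show (0 : ℝ) < 2 by norm_num)
  linarith

/-- **`log (h R)` is `log √|d|` up to `O([F : ℚ]) + ε log |d|`.** -/
theorem exists_abs_log_abelian_le {ε : ℝ} (hε : 0 < ε) : ∃ C : ℝ, 0 ≤ C ∧
    ∀ (F : Type*) [Field F] [NumberField F] [IsAbelianGalois ℚ F],
      |Real.log (classNumber F * Units.regulator F : ℝ) - Real.log (Real.sqrt ((discr F).natAbs : ℝ))| ≤
        Module.finrank ℚ F * C + ε * Real.log ((discr F).natAbs : ℝ) := by
  obtain ⟨CL, hCL, hL⟩ := FA.CycloGrowth.exists_abs_log_norm_primitive_le_conductor hε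
  refine ⟨CL + 3 + Real.log (2 * π), by
    have : 0 ≤ Real.log (2 * π) := Real.log_nonneg (by nlinarith [Real.pi_gt_three])
    positivity, fun F _ _ _ => ?_⟩
  obtain ⟨n, hn, X, h1, hcard, hres, hd⟩ := exists_chars F
  have hLpos : ∀ χ ∈ X.erase 1, (0 : ℝ) < ‖LFunction χ.primitiveCharacter 1‖ := fun χ hχ =>
    have : NeZero χ.conductor := ⟨χ.conductor_ne_zero⟩
    norm_pos_iff.mpr (LFunction_apply_one_ne_zero (FA.AbelianZeta.primitive_ne_one (Finset.mem_erase.mp hχ).1))
  have hR : 0 < Units.regulator F := Units.regulator_pos F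
  have hh : (0 : ℝ) < classNumber F := by exact_mod_cast classNumber_pos F
  have hw : (0 : ℝ) < Units.torsionOrder F := by exact_mod_cast Units.torsionOrder_pos F
  have hdpos : (0 : ℝ) < ((discr F).natAbs : ℝ) := by exact_mod_cast Int.natAbs_pos.mpr (discr_ne_zero F)
  have hfull : (∏ χ ∈ X.erase 1, ‖LFunction χ.primitiveCharacter 1‖) *
      (Units.torsionOrder F * Real.sqrt ((discr F).natAbs : ℝ)) =
      2 ^ InfinitePlace.nrRealPlaces F * (2 * π) ^ InfinitePlace.nrComplexPlaces F *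
        (classNumber F * Units.regulator F) := by
    have h := congrArg (fun z : ℂ => ‖z‖) hres
    simp only [norm_prod, Complex.norm_real, Real.norm_eq_abs, dedekindZeta_residue_def] at h
    rw [show |((discr F : ℤ) : ℝ)| = ((discr F).natAbs : ℝ) by rw [Nat.cast_natAbs, Int.cast_abs],
      abs_of_nonneg (div_nonneg (mul_nonneg (mul_nonneg (mul_nonneg (pow_nonneg zero_le_two _)
        (pow_nonneg Real.two_pi_pos.le _)) hR.le) hh.le) (mul_nonneg hw.le (Real.sqrt_nonneg _)))] at h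
    rw [← h, div_mul_cancel₀ _ (mul_pos hw (Real.sqrt_pos.mpr hdpos)).ne']
    ring
  have e := congrArg Real.log hfull
  rw [Real.log_mul (Finset.prod_pos hLpos).ne' (mul_pos hw (Real.sqrt_pos.mpr hdpos)).ne',
    Real.log_mul hw.ne' (Real.sqrt_pos.mpr hdpos).ne', Real.log_prod fun χ hχ => (hLpos χ hχ).ne',
    Real.log_mul (mul_pos (pow_pos two_pos _) (pow_pos Real.two_pi_pos _)).ne' (mul_pos hh hR).ne',
    Real.log_mul (pow_pos two_pos _).ne' (pow_pos Real.two_pi_pos _).ne', Real.log_pow, Real.log_pow] at e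
  have hsum : |∑ χ ∈ X.erase 1, Real.log ‖LFunction χ.primitiveCharacter 1‖| ≤
      Module.finrank ℚ F * CL + ε * Real.log ((discr F).natAbs : ℝ) := by
    refine (Finset.abs_sum_le_sum_abs _ _).trans
      ((Finset.sum_le_sum fun χ hχ => hL n χ (Finset.mem_erase.mp hχ).1).trans ?_)
    rw [Finset.sum_add_distrib, Finset.sum_const, nsmul_eq_mul, ← Finset.mul_sum, hd, Nat.cast_prod,
      Real.log_prod fun χ _ => Nat.cast_ne_zero.mpr χ.conductor_ne_zero, ← hcard]
    refine add_le_add (mul_le_mul_of_nonneg_right (Nat.cast_le.mpr Finset.card_erase_le) hCL) le_rfl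
  have hplaces : (InfinitePlace.nrRealPlaces F : ℝ) + 2 * InfinitePlace.nrComplexPlaces F = Module.finrank ℚ F := by
    exact_mod_cast InfinitePlace.card_add_two_mul_card_eq_rank F
  have hw1 := log_torsionOrder_le F
  have hw0 : 0 ≤ Real.log (Units.torsionOrder F : ℝ) := Real.log_nonneg (by exact_mod_cast Units.torsionOrder_pos F)
  have hl2 : 0 ≤ Real.log 2 := Real.log_nonneg (by norm_num)
  have hl2π : Real.log 2 ≤ Real.log (2 * π) := Real.log_le_log two_pos (by nlinarith [Real.pi_gt_three])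
  have hr : (0 : ℝ) ≤ InfinitePlace.nrRealPlaces F := Nat.cast_nonneg _
  have hc : (0 : ℝ) ≤ InfinitePlace.nrComplexPlaces F := Nat.cast_nonneg _
  rw [← hplaces] at hw1 hsum ⊢
  rw [abs_le] at hsum ⊢
  constructor <;>
    linarith [mul_le_mul_of_nonneg_left hl2π hr, mul_nonneg hr hl2, mul_nonneg hc hl2,
      mul_le_mul_of_nonneg_left hl2π hc, mul_nonneg hr hCL, mul_nonneg hc hCL]

/-- At most `T!` characters have conductor at most `T`. -/
theorem card_conductor_le {n : ℕ} [NeZero n] (O : Finset (DirichletCharacter ℂ n)) (T : ℕ) :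
    (O.filter fun χ => χ.conductor ≤ T).card ≤ T.factorial := by
  set g := n.gcd T.factorial
  have : NeZero g := ⟨(Nat.gcd_pos_of_pos_left _ (NeZero.pos n)).ne'⟩
  have h : ∀ χ ∈ O.filter (fun χ => χ.conductor ≤ T), ∃ χ₀ : DirichletCharacter ℂ g,
      changeLevel (Nat.gcd_dvd_left n T.factorial) χ₀ = χ := fun χ hχ => by
    have hdvd : χ.conductor ∣ g := Nat.dvd_gcd χ.conductor_dvd_level
      (Nat.dvd_factorial (Nat.pos_of_ne_zero χ.conductor_ne_zero) (Finset.mem_filter.mp hχ).2)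
    obtain ⟨_, χ₀, h0⟩ := (mem_conductorSet_iff_conductor_dvd χ (Nat.gcd_dvd_left n T.factorial)).mpr hdvd
    exact ⟨χ₀, h0.symm⟩
  choose φ hφ using h
  refine (Finset.card_le_card_of_injOn (t := (Finset.univ : Finset (DirichletCharacter ℂ g)))
    (fun χ => if hχ : χ ∈ O.filter (fun χ => χ.conductor ≤ T) then φ χ hχ else 1)
    (fun _ _ => Finset.mem_coe.mpr (Finset.mem_univ _)) (fun χ hχ χ' hχ' e => ?_)).trans ?_
  · simp only [dif_pos (Finset.mem_coe.mp hχ), dif_pos (Finset.mem_coe.mp hχ')] at e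
    rw [← hφ χ hχ, ← hφ χ' hχ', e]
  · rw [Finset.card_univ, ← Nat.card_eq_fintype_card, card_eq_totient_of_hasEnoughRootsOfUnity ℂ g]
    exact (Nat.totient_le g).trans (Nat.gcd_le_right _ T.factorial_pos)

/-- **`h/h⁺` from below for an abelian CM field.** -/
theorem exists_relative_ge : ∃ c : ℝ, 0 < c ∧ c ≤ 1 ∧
    ∀ (F : Type*) [Field F] [NumberField F] [IsAbelianGalois ℚ F] [IsCMField F],
      ∃ (n : ℕ) (_ : NeZero n) (O : Finset (DirichletCharacter ℂ n)),
        2 * O.card = Module.finrank ℚ F ∧ (discr F).natAbs ≤ (∏ χ ∈ O, χ.conductor) ^ 2 ∧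
        (∏ χ ∈ O, c * (χ.conductor : ℝ) ^ (1 / 4 : ℝ)) * classNumber (maximalRealSubfield F) ≤ classNumber F := by
  obtain ⟨c, hc, hlow⟩ := FA.CycloGrowth.exists_norm_LFunction_one_ge_eps (show (0 : ℝ) < 1 / 4 by norm_num)
  refine ⟨min (c / (2 * π)) 1, lt_min (div_pos hc Real.two_pi_pos) one_pos, min_le_right _ _, fun F _ _ _ _ => ?_⟩
  obtain ⟨n, hn, O, hO, hcard, hres, hd⟩ := exists_oddChars F
  refine ⟨n, hn, O, hcard, ?_, ?_⟩
  · have h := FA.CycloGrowth.natAbs_discr_plus_sq_le F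
    have h0 : 0 < (discr (maximalRealSubfield F)).natAbs := Int.natAbs_pos.mpr (discr_ne_zero _)
    rw [hd, pow_two] at h
    have h' : (discr (maximalRealSubfield F)).natAbs ≤ ∏ χ ∈ O, χ.conductor := Nat.le_of_mul_le_mul_right h h0
    rw [hd, pow_two]
    exact Nat.mul_le_mul_left _ h'
  obtain ⟨j, hj⟩ : ∃ j, O.card = j + 1 := ⟨O.card - 1, by
    have := Module.finrank_pos (R := ℚ) (M := F)
    omega⟩
  have hreal : InfinitePlace.nrRealPlaces F = 0 := IsTotallyComplex.nrRealPlaces_eq_zero F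
  have hcplx : InfinitePlace.nrComplexPlaces F = j + 1 := by
    have := IsTotallyComplex.finrank F
    omega
  have hrank : Units.rank F = j := by
    rw [Units.rank, InfinitePlace.card_eq_nrRealPlaces_add_nrComplexPlaces, hreal, hcplx]
    omega
  have hplus : InfinitePlace.nrRealPlaces (maximalRealSubfield F) = j + 1 ∧
      InfinitePlace.nrComplexPlaces (maximalRealSubfield F) = 0 ∧
      Units.torsionOrder (maximalRealSubfield F) = 2 := by
    have h0 : InfinitePlace.nrComplexPlaces (maximalRealSubfield F) = 0 :=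
      IsTotallyReal.nrComplexPlaces_eq_zero _
    have h1 := IsCMField.units_rank_eq_units_rank F
    rw [hrank, Units.rank, InfinitePlace.card_eq_nrRealPlaces_add_nrComplexPlaces, h0] at h1
    have hpos : 0 < InfinitePlace.nrRealPlaces (maximalRealSubfield F) := by
      have := Fintype.card_pos (α := InfinitePlace (maximalRealSubfield F))
      rw [InfinitePlace.card_eq_nrRealPlaces_add_nrComplexPlaces, h0] at this
      omega
    exact ⟨by omega, h0, FA.Regular.torsionOrder_eq_two_of_real hpos⟩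
  have hreg := IsCMField.regulator_div_regulator_eq_two_pow_mul_indexRealUnits_inv F
  rw [div_eq_iff (Units.regulator_ne_zero _), hrank] at hreg
  have hL : (∏ χ ∈ O, ‖LFunction χ.primitiveCharacter 1‖) *
      |dedekindZeta_residue (maximalRealSubfield F)| = |dedekindZeta_residue F| := by
    have h := congrArg (fun z : ℂ => ‖z‖) hres
    simpa only [norm_mul, norm_prod, Complex.norm_real, Real.norm_eq_abs] using h
  rw [dedekindZeta_residue_def, dedekindZeta_residue_def, hreal, hcplx, hplus.1, hplus.2.1, hplus.2.2, hreg] at hL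
  simp only [pow_zero, one_mul, mul_one, Nat.cast_ofNat] at hL
  rw [show |((discr F : ℤ) : ℝ)| = ((discr F).natAbs : ℝ) by rw [Nat.cast_natAbs, Int.cast_abs],
    show |((discr (maximalRealSubfield F) : ℤ) : ℝ)| = ((discr (maximalRealSubfield F)).natAbs : ℝ) by
      rw [Nat.cast_natAbs, Int.cast_abs], hd, Nat.cast_mul, Nat.cast_prod,
    Real.sqrt_mul (Finset.prod_nonneg fun _ _ => Nat.cast_nonneg _)] at hL
  set P := ∏ χ ∈ O, ‖LFunction χ.primitiveCharacter 1‖
  set Pf : ℝ := ∏ χ ∈ O, (χ.conductor : ℝ) with hPf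
  set R : ℝ := Units.regulator (maximalRealSubfield F)
  set H : ℝ := (classNumber (maximalRealSubfield F) : ℝ)
  set w : ℝ := (Units.torsionOrder F : ℝ)
  set Q : ℝ := (IsCMField.indexRealUnits F : ℝ)
  set s' : ℝ := Real.sqrt ((discr (maximalRealSubfield F)).natAbs : ℝ)
  have hPf0 : 0 < Pf := Finset.prod_pos fun χ _ => Nat.cast_pos.mpr (Nat.pos_of_ne_zero χ.conductor_ne_zero)
  have hs' : 0 < s' := Real.sqrt_pos.mpr (by exact_mod_cast Int.natAbs_pos.mpr (discr_ne_zero _))
  have hw : (1 : ℝ) ≤ w := Nat.one_le_cast.mpr (Units.torsionOrder_pos F)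
  have hQ : (1 : ℝ) ≤ Q := by
    simp only [Q]
    rcases IsCMField.indexRealUnits_eq_one_or_two F with e | e <;> rw [e] <;> norm_num
  have hR : 0 < R := Units.regulator_pos _
  have hh : (0 : ℝ) < classNumber F := by exact_mod_cast classNumber_pos _
  have hH : (0 : ℝ) < H := by simp only [H]; exact_mod_cast classNumber_pos _
  have hsf : 0 < Real.sqrt Pf := Real.sqrt_pos.mpr hPf0
  rw [abs_of_pos (a := 2 ^ (j + 1) * R * H / (2 * s')) (by positivity),
    abs_of_pos (a := (2 * π) ^ (j + 1) * (2 ^ j * Q⁻¹ * R) * classNumber F / (w * (Real.sqrt Pf * s')))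
      (by positivity)] at hL
  have hkey : P * H * Real.sqrt Pf * (w * Q) = (2 * π) ^ (j + 1) * classNumber F := by
    field_simp at hL
    rw [mul_pow, pow_succ 2 j] at hL ⊢
    refine mul_left_cancel₀ (mul_ne_zero (pow_ne_zero j (two_ne_zero (α := ℝ))) (two_ne_zero (α := ℝ))) ?_
    linear_combination hL
  have hterm : ∀ χ ∈ O, (2 * π) * (min (c / (2 * π)) 1 * (χ.conductor : ℝ) ^ (1 / 4 : ℝ)) ≤
      ‖LFunction χ.primitiveCharacter 1‖ * Real.sqrt χ.conductor := fun χ hχ => by
    have : NeZero χ.conductor := ⟨χ.conductor_ne_zero⟩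
    have hf : (0 : ℝ) < χ.conductor := Nat.cast_pos.mpr (NeZero.pos _)
    have h := mul_le_mul_of_nonneg_right
      (hlow χ.conductor χ.primitiveCharacter (FA.AbelianZeta.primitive_ne_one (hO χ hχ)))
      (Real.sqrt_nonneg (χ.conductor : ℝ))
    refine le_trans ?_ h
    rw [mul_assoc c, Real.sqrt_eq_rpow, ← Real.rpow_add hf, show -(1 / 4 : ℝ) + 1 / 2 = 1 / 4 by norm_num,
      ← mul_assoc]
    refine mul_le_mul_of_nonneg_right ?_ (Real.rpow_nonneg hf.le _)
    calc 2 * π * min (c / (2 * π)) 1 ≤ 2 * π * (c / (2 * π)) :=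
          mul_le_mul_of_nonneg_left (min_le_left _ _) Real.two_pi_pos.le
      _ = c := mul_div_cancel₀ c Real.two_pi_pos.ne'
  have hprod := Finset.prod_le_prod (fun χ _ => mul_nonneg Real.two_pi_pos.le (mul_nonneg
    (lt_min (div_pos hc Real.two_pi_pos) one_pos).le (Real.rpow_nonneg (Nat.cast_nonneg χ.conductor) _))) hterm
  have hsplit : ∏ χ ∈ O, ‖LFunction χ.primitiveCharacter 1‖ * Real.sqrt χ.conductor = P * Real.sqrt Pf := by
    rw [Finset.prod_mul_distrib, hPf, Real.sqrt_prod _ fun χ _ => Nat.cast_nonneg _]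
  rw [hsplit, Finset.prod_mul_distrib, Finset.prod_const, hj] at hprod
  have hfin := mul_le_mul_of_nonneg_right hprod hH.le
  have hP : 0 ≤ P := Finset.prod_nonneg fun _ _ => norm_nonneg _
  refine le_of_mul_le_mul_left (a := (2 * π) ^ (j + 1)) ?_ (pow_pos Real.two_pi_pos _)
  rw [← hkey, ← mul_assoc]
  refine hfin.trans ?_
  calc P * Real.sqrt Pf * H = P * H * Real.sqrt Pf := by ring
    _ ≤ _ := le_mul_of_one_le_right (mul_nonneg (mul_nonneg hP hH.le) hsf.le)
        (one_le_mul_of_one_le_of_one_le hw hQ)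

end FA.ConductorDiscr
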