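import Fermat.Agent.ConductorDiscr.RootDistance
import Mathlib.NumberTheory.DirichletCharacter.Orthogonality
import Mathlib.GroupTheory.FiniteAbelian.Duality
import Mathlib.RingTheory.RootsOfUnity.AlgebraicallyClosed
import Mathlib.Analysis.Complex.Polynomial.Basic

/-!
# The conductors of a group of characters

For a subgroup `H` of `(ℤ/n)ˣ`, `|H| ∑ log f(χ)` over the characters trivial on `H` is the sum of `rootLog (g - 1)`
over the `g` outside `H`.
-/

set_option autoImplicit false
set_option linter.style.haveILetI false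

noncomputable section

open DirichletCharacter ArithmeticFunction
open scoped ArithmeticFunction Classical

namespace FA.ConductorDiscr

variable (n : ℕ) [NeZero n]

/-- The characters trivial on `H`. -/
def charsTrivialOn (H : Subgroup (ZMod n)ˣ) : Finset (DirichletCharacter ℂ n) :=
  Finset.univ.filter fun χ => ∀ h ∈ H, χ (h : ZMod n) = 1

/-- The units `≡ 1 (mod n / m)`. -/
def levelKer (m : ℕ) (hm : m ∣ n) : Subgroup (ZMod n)ˣ :=
  (ZMod.unitsMap (Nat.div_dvd_of_dvd hm)).ker

theorem mem_levelKer {m : ℕ} (hm : m ∣ n) (g : (ZMod n)ˣ) :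
    g ∈ levelKer n m hm ↔ (m : ZMod n) * ((g : ZMod n) - 1) = 0 := by
  obtain ⟨j, hj⟩ : ∃ j : ℤ, (j : ZMod n) = (g : ZMod n) - 1 :=
    ⟨(((g : ZMod n) - 1).val : ℕ), by rw [Int.cast_natCast, ZMod.natCast_zmod_val]⟩
  have hg : (g : ZMod n) = ((j + 1 : ℤ) : ZMod n) := by push_cast; rw [hj, sub_add_cancel]
  have hq : (n : ℤ) = (m : ℤ) * ((n / m : ℕ) : ℤ) := by exact_mod_cast (Nat.mul_div_cancel' hm).symm
  have hm0 : (m : ℤ) ≠ 0 := by
    intro e
    rw [e, zero_mul] at hq
    exact NeZero.ne n (by exact_mod_cast hq)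
  rw [levelKer, MonoidHom.mem_ker, Units.ext_iff, ZMod.unitsMap_val, Units.val_one, ← hj, hg,
    ZMod.cast_intCast (Nat.div_dvd_of_dvd hm), ← sub_eq_zero (b := (1 : ZMod (n / m))),
    show ((j + 1 : ℤ) : ZMod (n / m)) - 1 = (j : ZMod (n / m)) by push_cast; ring,
    ← Int.cast_natCast (R := ZMod n) m, ← Int.cast_mul, ZMod.intCast_zmod_eq_zero_iff_dvd,
    ZMod.intCast_zmod_eq_zero_iff_dvd, hq]
  exact (mul_dvd_mul_iff_left hm0).symm

/-- The characters trivial on a subgroup. -/
theorem card_charsTrivialOn (S : Subgroup (ZMod n)ˣ) : (charsTrivialOn n S).card = S.index := by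
  haveI : NeZero (Monoid.exponent (ZMod n)ˣ : ℂ) :=
    ⟨Nat.cast_ne_zero.mpr (Monoid.exponent_ne_zero_of_finite (G := (ZMod n)ˣ))⟩
  rw [Subgroup.index_eq_card, ← CommGroup.card_domRestrictHom_ker ℂ S, ← Nat.card_eq_finsetCard]
  refine Nat.card_congr (MulChar.equivToUnitHom.subtypeEquiv fun χ => ?_)
  simp only [charsTrivialOn, Finset.mem_filter, Finset.mem_univ, true_and, MonoidHom.mem_ker]
  constructor
  · intro h
    refine MonoidHom.ext fun y => Units.ext ?_
    exact (MulChar.coe_equivToUnitHom χ y.1).trans (h y.1 y.2)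
  · intro h g hg
    rw [← MulChar.coe_equivToUnitHom χ g]
    exact congrArg Units.val (DFunLike.congr_fun h ⟨g, hg⟩)

/-- The conductor through the divisors of the level. -/
theorem log_conductor_eq (χ : DirichletCharacter ℂ n) :
    Real.log χ.conductor = Real.log n - ∑ m ∈ n.divisors.filter (fun m : ℕ => χ.conductor ∣ n / m), Λ m := by
  obtain ⟨e, he⟩ := χ.conductor_dvd_level
  have hc : χ.conductor ≠ 0 := χ.conductor_ne_zero
  have he0 : e ≠ 0 := by rintro rfl; exact NeZero.ne n (by rw [he, mul_zero])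
  have hset : n.divisors.filter (fun m : ℕ => χ.conductor ∣ n / m) = e.divisors := by
    ext m
    simp only [Finset.mem_filter, Nat.mem_divisors]
    constructor
    · rintro ⟨⟨hm, -⟩, hdiv⟩
      rw [Nat.dvd_div_iff_mul_dvd hm, mul_comm m] at hdiv
      exact ⟨(mul_dvd_mul_iff_left hc).mp (hdiv.trans he.dvd), he0⟩
    · rintro ⟨hm, -⟩
      have hmn : m ∣ n := (dvd_mul_of_dvd_right hm _).trans he.symm.dvd
      refine ⟨⟨hmn, NeZero.ne n⟩, ?_⟩
      rw [Nat.dvd_div_iff_mul_dvd hmn, mul_comm m]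
      exact (mul_dvd_mul_left _ hm).trans he.symm.dvd
  have hlog : Real.log (n : ℝ) = Real.log χ.conductor + Real.log e := by
    rw [show (n : ℝ) = (χ.conductor : ℝ) * e by exact_mod_cast he,
      Real.log_mul (Nat.cast_ne_zero.mpr hc) (Nat.cast_ne_zero.mpr he0)]
  rw [hset, vonMangoldt_sum, hlog, add_sub_cancel_right]

/-- The conductor divides `n / m` when the kernel is killed. -/
theorem conductor_dvd_iff_levelKer {m : ℕ} (hm : m ∣ n) (χ : DirichletCharacter ℂ n) :
    χ.conductor ∣ n / m ↔ ∀ g ∈ levelKer n m hm, χ (g : ZMod n) = 1 := by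
  have : NeZero (n / m) := ⟨fun e => NeZero.ne n (by rw [← Nat.mul_div_cancel' hm, e, mul_zero])⟩
  rw [← mem_conductorSet_iff_conductor_dvd χ (Nat.div_dvd_of_dvd hm), mem_conductorSet_iff,
    factorsThrough_iff_ker_unitsMap]
  exact forall₂_congr fun g _ => by rw [MonoidHom.mem_ker, Units.ext_iff, MulChar.coe_toUnitHom, Units.val_one]

omit [NeZero n] in
/-- Trivial on a supremum. -/
theorem forall_mem_sup_apply_eq_one {S T : Subgroup (ZMod n)ˣ} (χ : DirichletCharacter ℂ n) :
    (∀ g ∈ S ⊔ T, χ (g : ZMod n) = 1) ↔ (∀ g ∈ S, χ (g : ZMod n) = 1) ∧ ∀ g ∈ T, χ (g : ZMod n) = 1 := by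
  refine ⟨fun h => ⟨fun g hg => h g (le_sup_left (b := T) hg), fun g hg => h g (le_sup_right (a := S) hg)⟩,
    fun h g hg => ?_⟩
  obtain ⟨s, hs, t, ht, rfl⟩ := Subgroup.mem_sup.mp hg
  rw [Units.val_mul, map_mul, h.1 s hs, h.2 t ht, mul_one]

/-- The count at one divisor. -/
theorem card_mul_card_filter {m : ℕ} (hm : m ∣ n) (H : Subgroup (ZMod n)ˣ) :
    Nat.card H * ((charsTrivialOn n H).filter fun χ => χ.conductor ∣ n / m).card =
      (n / m).totient * Nat.card (H ⊓ levelKer n m hm : Subgroup (ZMod n)ˣ) := by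
  set U := levelKer n m hm with hU
  have hset : (charsTrivialOn n H).filter (fun χ => χ.conductor ∣ n / m) = charsTrivialOn n (H ⊔ U) := by
    ext χ
    simp only [charsTrivialOn, Finset.mem_filter, Finset.mem_univ, true_and,
      conductor_dvd_iff_levelKer n hm, forall_mem_sup_apply_eq_one, hU]
  have : NeZero (n / m) := ⟨fun e => NeZero.ne n (by rw [← Nat.mul_div_cancel' hm, e, mul_zero])⟩
  have hUi : U.index = (n / m).totient := by
    rw [hU, levelKer, Subgroup.index_ker, MonoidHom.range_eq_top.mpr (ZMod.unitsMap_surjective _),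
      Subgroup.card_top, Nat.card_eq_fintype_card, ZMod.card_units_eq_totient]
  rw [hset, card_charsTrivialOn, ← hUi]
  have h1 := Subgroup.relIndex_mul_index (le_sup_right : U ≤ H ⊔ U)
  rw [Subgroup.relIndex_sup_right] at h1
  have h2 : Nat.card (H ⊓ U : Subgroup (ZMod n)ˣ) * U.relIndex H = Nat.card H := by
    rw [← Subgroup.inf_relIndex_left H U]
    have h3 := Subgroup.relIndex_mul_relIndex ⊥ (H ⊓ U) H bot_le inf_le_left
    rwa [Subgroup.relIndex_bot_left, Subgroup.relIndex_bot_left] at h3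
  rw [← h1, ← h2]
  ring

/-- **The sum of the logarithms of the conductors.** -/
theorem card_mul_sum_log_conductor (H : Subgroup (ZMod n)ˣ) :
    (Nat.card H : ℝ) * ∑ χ ∈ charsTrivialOn n H, Real.log χ.conductor =
      n.totient * Real.log n - ∑ h ∈ Finset.univ.filter (· ∈ H), divWeight n ((h : ZMod n) - 1) := by
  simp only [log_conductor_eq, Finset.sum_sub_distrib, mul_sub, Finset.sum_const, nsmul_eq_mul]
  have h0 : (Nat.card H : ℝ) * (charsTrivialOn n H).card = n.totient := by
    rw [← Nat.cast_mul, card_charsTrivialOn, Subgroup.card_mul_index, Nat.card_eq_fintype_card,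
      ZMod.card_units_eq_totient]
  rw [← mul_assoc, h0]
  congr 1
  simp only [divWeight, Finset.sum_filter]
  rw [Finset.sum_comm, Finset.mul_sum]
  conv_rhs => rw [← Finset.sum_filter (p := (· ∈ H)), Finset.sum_comm]
  refine Finset.sum_congr rfl fun m hm => ?_
  have hm' := (Nat.mem_divisors.mp hm).1
  rw [← Finset.sum_filter, ← Finset.sum_filter, Finset.sum_const, Finset.sum_const, nsmul_eq_mul, nsmul_eq_mul]
  have hcard : ((Finset.univ.filter fun h : (ZMod n)ˣ => h ∈ H).filter
      fun h : (ZMod n)ˣ => (m : ZMod n) * ((h : ZMod n) - 1) = 0).card =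
        Nat.card (H ⊓ levelKer n m hm' : Subgroup (ZMod n)ˣ) := by
    rw [← Nat.card_eq_finsetCard]
    exact Nat.card_congr (Equiv.subtypeEquivRight fun g => by
      rw [Finset.mem_filter, Finset.mem_filter, Subgroup.mem_inf, mem_levelKer n hm']
      simp)
  rw [hcard, ← mul_assoc, ← Nat.cast_mul, card_mul_card_filter n hm' H, Nat.cast_mul]
  ring

/-- **Outside the group**: the weights give the sum. -/
theorem card_mul_sum_log_conductor_eq_rootLog (H : Subgroup (ZMod n)ˣ) :
    (Nat.card H : ℝ) * ∑ χ ∈ charsTrivialOn n H, Real.log χ.conductor =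
      ∑ g ∈ Finset.univ.filter (· ∉ H), rootLog n ((g : ZMod n) - 1) := by
  have htop := card_mul_sum_log_conductor n ⊤
  have hone : charsTrivialOn n ⊤ = {1} := by
    refine Finset.eq_singleton_iff_unique_mem.mpr ⟨Finset.mem_filter.mpr ⟨Finset.mem_univ _, fun g _ =>
      MulChar.one_apply g.isUnit⟩, fun χ hχ => MulChar.ext fun g => ?_⟩
    rw [(Finset.mem_filter.mp hχ).2 g (Subgroup.mem_top g), MulChar.one_apply g.isUnit]
  rw [hone, Finset.sum_singleton, conductor_one, Nat.cast_one, Real.log_one, mul_zero] at htop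
  rw [card_mul_sum_log_conductor, sub_eq_zero.mp htop.symm, Finset.filter_true_of_mem (fun g _ => Subgroup.mem_top g),
    ← Finset.sum_filter_add_sum_filter_not Finset.univ (· ∈ H) (fun g : (ZMod n)ˣ => divWeight n ((g : ZMod n) - 1)),
    add_sub_cancel_left]
  refine Finset.sum_congr rfl fun g hg => (rootLog_eq_divWeight n ?_).symm
  intro e
  exact (Finset.mem_filter.mp hg).2 (by rw [show g = 1 from Units.ext (sub_eq_zero.mp e)]; exact H.one_mem)

end FA.ConductorDiscr
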