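import Fermat.Agent.ConductorDiscr.Conductor
import Fermat.Agent.AbelianZeta.Chars
import Mathlib.NumberTheory.NumberField.Discriminant.Different
import Mathlib.NumberTheory.NumberField.Cyclotomic.Basic

/-!
# The different of `ℚ(ζ_n)` over a subfield

It is generated by the product of the `ζ - σ ζ`, so `log |d_K| = [K : F] log |d_F| + ∑ rootLog (σ - 1)` over the
`σ ≠ 1` fixing `F`.
-/

set_option autoImplicit false

noncomputable section

open NumberField Polynomial
open scoped Classical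

namespace FA.ConductorDiscr

variable (n : ℕ) [NeZero n] (K : Type*) [Field K] [NumberField K] [IsCyclotomicExtension {n} ℚ K]
  [IsGalois ℚ K] (F : IntermediateField ℚ K)

omit [IsGalois ℚ K] in
/-- An embedding moves the root by the standard character. -/
theorem exists_unit_embedding (φ : K →ₐ[ℚ] ℂ) :
    ∃ u : (ZMod n)ˣ, φ (IsCyclotomicExtension.zeta n ℚ K) = ZMod.stdAddChar (u : ZMod n) := by
  have hζ := IsCyclotomicExtension.zeta_spec n ℚ K
  have hz : IsPrimitiveRoot (ZMod.stdAddChar (1 : ZMod n)) n := by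
    rw [← Int.cast_one, ZMod.stdAddChar_coe, Int.cast_one, mul_one]
    exact Complex.isPrimitiveRoot_exp n (NeZero.ne n)
  obtain ⟨i, -, hco, hi'⟩ :=
    hz.isPrimitiveRoot_iff.mp (hζ.map_of_injective (f := φ) φ.toRingHom.injective)
  exact ⟨ZMod.unitOfCoprime i hco, by
    rw [← hi', ← AddChar.map_nsmul_eq_pow, nsmul_one, ZMod.coe_unitOfCoprime]⟩

/-- The sum over the embeddings of one difference of conjugates. -/
theorem sum_log_norm_sub (σ : K ≃ₐ[ℚ] K) :
    ∑ φ : K →ₐ[ℚ] ℂ, Real.log ‖φ (IsCyclotomicExtension.zeta n ℚ K - σ (IsCyclotomicExtension.zeta n ℚ K))‖ =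
      rootLog n ((IsCyclotomicExtension.Rat.galEquivZMod n K σ : ZMod n) - 1) := by
  have hζ := IsCyclotomicExtension.zeta_spec n ℚ K
  choose u hu using exists_unit_embedding n K
  have hinj : Function.Injective u := fun φ ψ e =>
    (hζ.powerBasis ℚ).algHom_ext (by rw [hζ.powerBasis_gen ℚ, hu φ, hu ψ, e])
  have hbij : Function.Bijective u := (Fintype.bijective_iff_injective_and_card u).mpr ⟨hinj, by
    rw [AlgHom.card, IsCyclotomicExtension.Rat.finrank n K, ZMod.card_units_eq_totient]⟩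
  rw [rootLog]
  refine Finset.sum_bij (fun φ _ => u φ) (fun _ _ => Finset.mem_univ _) (fun _ _ _ _ e => hinj e)
    (fun v _ => (hbij.2 v).imp fun φ h => ⟨Finset.mem_univ _, h⟩) fun φ _ => ?_
  set g := IsCyclotomicExtension.Rat.galEquivZMod n K σ
  rw [IsCyclotomicExtension.Rat.galEquivZMod_apply_of_pow_eq n K σ hζ.pow_eq_one, map_sub, map_pow, hu φ,
    ← AddChar.map_nsmul_eq_pow, nsmul_eq_mul, ZMod.natCast_zmod_val,
    show (g : ZMod n) * (u φ : ZMod n) = (u φ : ZMod n) + (u φ : ZMod n) * ((g : ZMod n) - 1) by ring,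
    AddChar.map_add_eq_mul, ← mul_one_sub, norm_mul, AddChar.norm_apply, one_mul]

/-- The minimal polynomial of `ζ` at `ζ`, differentiated. -/
theorem eval_derivative_minpoly :
    aeval (IsCyclotomicExtension.zeta n ℚ K) (derivative (minpoly F (IsCyclotomicExtension.zeta n ℚ K))) =
      ∏ σ ∈ (Finset.univ : Finset (K ≃ₐ[ℚ] K)).filter (fun σ => σ ∈ F.fixingSubgroup ∧ σ ≠ 1),
        (IsCyclotomicExtension.zeta n ℚ K - σ (IsCyclotomicExtension.zeta n ℚ K)) := by
  have hζ := IsCyclotomicExtension.zeta_spec n ℚ K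
  set ζ := IsCyclotomicExtension.zeta n ℚ K
  set S := (Finset.univ : Finset (K ≃ₐ[ℚ] K)).filter (fun σ => σ ∈ F.fixingSubgroup)
  have hint : IsIntegral F ζ := .of_finite _ _
  set f := (minpoly F ζ).map (algebraMap F K) with hf
  have hm : f.Monic := (minpoly.monic hint).map _
  have hinj : Set.InjOn (fun σ : K ≃ₐ[ℚ] K => σ ζ) S := fun σ _ τ _ e =>
    AlgEquiv.coe_toAlgHom_injective ((hζ.powerBasis ℚ).algHom_ext (by rw [hζ.powerBasis_gen ℚ]; exact e))
  have hgen : IntermediateField.adjoin F {ζ} = ⊤ := by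
    rw [← IntermediateField.restrictScalars_eq_top_iff (K := ℚ), eq_top_iff]
    have h := IsCyclotomicExtension.adjoin_primitive_root_eq_top (A := ℚ) (B := K) hζ
    intro y _
    have hy : y ∈ Algebra.adjoin ℚ ({ζ} : Set K) := by rw [h]; trivial
    exact Algebra.adjoin_le (show ({ζ} : Set K) ⊆ ((IntermediateField.adjoin F {ζ}).restrictScalars ℚ).toSubalgebra
      from fun z hz => IntermediateField.subset_adjoin F {ζ} hz) hy
  have hdeg : f.natDegree = S.card := by
    rw [hf, natDegree_map, ← IntermediateField.adjoin.finrank hint, hgen, IntermediateField.finrank_top',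
      ← IsGalois.card_fixingSubgroup_eq_finrank F, ← Nat.card_eq_finsetCard]
    exact Nat.card_congr (Equiv.subtypeEquivRight fun σ => by simp [S])
  have hroot : ∀ σ ∈ S, f.IsRoot (σ ζ) := fun σ hσ => by
    let τ : K →ₐ[F] K := { (σ : K →+* K) with commutes' := fun r =>
      (IntermediateField.mem_fixingSubgroup_iff F σ).mp (Finset.mem_filter.mp hσ).2 r r.2 }
    rw [IsRoot.def, hf, ← eval₂_eq_eval_map, ← aeval_def]
    show aeval (τ ζ) _ = 0
    rw [aeval_algHom_apply, minpoly.aeval, map_zero]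
  have hle : (S.image fun σ => σ ζ).val ≤ f.roots := by
    refine (Multiset.le_iff_subset (Finset.nodup _)).mpr fun z hz => ?_
    obtain ⟨σ, hσ, rfl⟩ := Finset.mem_image.mp hz
    exact (mem_roots hm.ne_zero).mpr (hroot σ hσ)
  have hcard : (S.image fun σ => σ ζ).val.card = f.natDegree := by
    rw [hdeg, ← Finset.card_image_of_injOn hinj]; rfl
  have hroots : f.roots = (S.image fun σ => σ ζ).val :=
    (Multiset.eq_of_le_of_card_le hle (hcard ▸ f.card_roots')).symm
  have hsplit : f.Splits := splits_iff_card_roots.mpr (by rw [hroots]; exact hcard)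
  have h1 : (1 : K ≃ₐ[ℚ] K) ∈ S := Finset.mem_filter.mpr ⟨Finset.mem_univ _, F.fixingSubgroup.one_mem⟩
  have hmem : ζ ∈ f.roots := by
    rw [hroots]; exact Finset.mem_image.mpr ⟨1, h1, rfl⟩
  rw [aeval_def, eval₂_eq_eval_map, ← derivative_map, ← hf, hsplit.eval_root_derivative hm hmem, hroots,
    ← Finset.erase_val, ← Finset.prod_eq_multiset_prod]
  symm
  refine Finset.prod_bij (fun σ _ => σ ζ) (fun σ hσ => ?_) (fun σ hσ τ hτ e => hinj ?_ ?_ e)
    (fun z hz => ?_) fun _ _ => rfl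
  · obtain ⟨h2, h3⟩ := (Finset.mem_filter.mp hσ).2
    exact Finset.mem_erase.mpr ⟨fun e => h3 (hinj (Finset.mem_filter.mpr ⟨Finset.mem_univ _, h2⟩) h1 e),
      Finset.mem_image.mpr ⟨σ, Finset.mem_filter.mpr ⟨Finset.mem_univ _, h2⟩, rfl⟩⟩
  · exact Finset.mem_filter.mpr ⟨Finset.mem_univ _, (Finset.mem_filter.mp hσ).2.1⟩
  · exact Finset.mem_filter.mpr ⟨Finset.mem_univ _, (Finset.mem_filter.mp hτ).2.1⟩
  · obtain ⟨hne, hz⟩ := Finset.mem_erase.mp hz
    obtain ⟨σ, hσ, rfl⟩ := Finset.mem_image.mp hz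
    exact ⟨σ, Finset.mem_filter.mpr ⟨Finset.mem_univ _, (Finset.mem_filter.mp hσ).2,
      fun e => hne (by rw [e]; rfl)⟩, rfl⟩

set_option backward.isDefEq.respectTransparency false in
/-- **The discriminant over a subfield.** -/
theorem log_discr_eq :
    Real.log ((discr K).natAbs : ℝ) = Module.finrank F K * Real.log ((discr F).natAbs : ℝ) +
      ∑ σ ∈ (Finset.univ : Finset (K ≃ₐ[ℚ] K)).filter (fun σ => σ ∈ F.fixingSubgroup ∧ σ ≠ 1),
        rootLog n ((IsCyclotomicExtension.Rat.galEquivZMod n K σ : ZMod n) - 1) := by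
  have hζ := IsCyclotomicExtension.zeta_spec n ℚ K
  set x : 𝓞 K := hζ.toInteger
  have htop : Algebra.adjoin (𝓞 F) ({x} : Set (𝓞 K)) = ⊤ := by
    refine eq_top_iff.mpr fun y _ => ?_
    have hy : y ∈ Algebra.adjoin ℤ ({x} : Set (𝓞 K)) := by
      rw [IsCyclotomicExtension.Rat.adjoin_singleton_eq_top hζ]; trivial
    exact Algebra.adjoin_le (show ({x} : Set (𝓞 K)) ⊆ (Algebra.adjoin (𝓞 F) {x}).restrictScalars ℤ from
      Algebra.subset_adjoin) hy
  have hgen : Algebra.adjoin F ({algebraMap (𝓞 K) K x} : Set K) = ⊤ := by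
    refine eq_top_iff.mpr fun y _ => ?_
    have hy : y ∈ Algebra.adjoin ℚ ({IsCyclotomicExtension.zeta n ℚ K} : Set K) := by
      rw [IsCyclotomicExtension.adjoin_primitive_root_eq_top (A := ℚ) (B := K) hζ]; trivial
    exact Algebra.adjoin_le (show ({IsCyclotomicExtension.zeta n ℚ K} : Set K) ⊆
      (Algebra.adjoin F {algebraMap (𝓞 K) K x}).restrictScalars ℚ from Algebra.subset_adjoin) hy
  have hdiff : differentIdeal (𝓞 F) (𝓞 K) = Ideal.span {aeval x (derivative (minpoly (𝓞 F) x))} := by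
    rw [← conductor_mul_differentIdeal (𝓞 F) F K x hgen, conductor_eq_top_of_adjoin_eq_top htop, Ideal.top_mul]
  set y : 𝓞 K := aeval x (derivative (minpoly (𝓞 F) x))
  have hy : (y : K) = ∏ σ ∈ (Finset.univ : Finset (K ≃ₐ[ℚ] K)).filter (fun σ => σ ∈ F.fixingSubgroup ∧ σ ≠ 1),
      (IsCyclotomicExtension.zeta n ℚ K - σ (IsCyclotomicExtension.zeta n ℚ K)) := by
    rw [← eval_derivative_minpoly n K F, show IsCyclotomicExtension.zeta n ℚ K = algebraMap (𝓞 K) K x from rfl,
      minpoly.isIntegrallyClosed_eq_field_fractions F K (IsIntegral.of_finite (𝓞 F) x), derivative_map,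
      aeval_map_algebraMap, aeval_algebraMap_apply]
  have hne : ∀ σ ∈ (Finset.univ : Finset (K ≃ₐ[ℚ] K)).filter (fun σ => σ ∈ F.fixingSubgroup ∧ σ ≠ 1),
      IsCyclotomicExtension.zeta n ℚ K - σ (IsCyclotomicExtension.zeta n ℚ K) ≠ 0 := fun σ hσ e => by
    refine (Finset.mem_filter.mp hσ).2.2 (AlgEquiv.coe_toAlgHom_injective ((hζ.powerBasis ℚ).algHom_ext ?_))
    rw [hζ.powerBasis_gen ℚ]
    exact (sub_eq_zero.mp e).symm
  have hnorm : (((Algebra.norm ℤ y).natAbs : ℕ) : ℝ) = ∏ φ : K →ₐ[ℚ] ℂ, ‖φ (y : K)‖ := by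
    rw [← norm_prod, ← Algebra.norm_eq_prod_embeddings ℚ ℂ, ← Algebra.coe_norm_int, eq_ratCast, Rat.cast_intCast,
      Complex.norm_intCast, Nat.cast_natAbs, Int.cast_abs]
  have hlognorm : Real.log ((Ideal.absNorm (differentIdeal (𝓞 F) (𝓞 K)) : ℕ) : ℝ) =
      ∑ σ ∈ (Finset.univ : Finset (K ≃ₐ[ℚ] K)).filter (fun σ => σ ∈ F.fixingSubgroup ∧ σ ≠ 1),
        rootLog n ((IsCyclotomicExtension.Rat.galEquivZMod n K σ : ZMod n) - 1) := by
    rw [hdiff, Ideal.absNorm_span_singleton, hnorm, hy]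
    simp only [map_prod, norm_prod]
    rw [Finset.prod_comm, Real.log_prod fun σ hσ => Finset.prod_ne_zero_iff.mpr fun φ _ =>
      norm_ne_zero_iff.mpr ((map_ne_zero φ.toRingHom).mpr (hne σ hσ))]
    refine Finset.sum_congr rfl fun σ hσ => ?_
    rw [Real.log_prod fun φ _ => norm_ne_zero_iff.mpr ((map_ne_zero φ.toRingHom).mpr (hne σ hσ)),
      sum_log_norm_sub]
  have hd := congrArg (fun t : ℕ => Real.log (t : ℝ))
    (natAbs_discr_eq_absNorm_differentIdeal_mul_natAbs_discr_pow F (𝓞 F) K (𝓞 K))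
  simp only [Nat.cast_mul, Nat.cast_pow] at hd
  rw [Real.log_mul, Real.log_pow, hlognorm] at hd
  · linarith
  · rw [Nat.cast_ne_zero, Ne, Ideal.absNorm_eq_zero_iff]
    exact differentIdeal_ne_bot
  · exact pow_ne_zero _ (Nat.cast_ne_zero.mpr (Int.natAbs_ne_zero.mpr (discr_ne_zero _)))

/-- The group of `F` in `(ℤ/n)ˣ`. -/
def fieldUnits : Subgroup (ZMod n)ˣ :=
  F.fixingSubgroup.map (IsCyclotomicExtension.Rat.galEquivZMod n K).toMonoidHom

theorem card_fieldUnits : Nat.card (fieldUnits n K F) = Module.finrank F K := by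
  rw [← IsGalois.card_fixingSubgroup_eq_finrank F]
  exact Nat.card_congr (F.fixingSubgroup.equivMapOfInjective _
    (IsCyclotomicExtension.Rat.galEquivZMod n K).injective).toEquiv.symm

/-- **The discriminant of a subfield of `ℚ(ζ_n)`.** -/
theorem card_mul_log_discr :
    (Nat.card (fieldUnits n K F) : ℝ) * Real.log ((discr F).natAbs : ℝ) =
      ∑ g ∈ Finset.univ.filter (· ∉ fieldUnits n K F), rootLog n ((g : ZMod n) - 1) := by
  have h1 := log_discr_eq n K F
  have h0 := log_discr_eq n K ⊥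
  have hQ : (discr (⊥ : IntermediateField ℚ K)).natAbs = 1 := by
    rw [discr_eq_discr_of_algEquiv _ (IntermediateField.botEquiv ℚ K), Rat.numberField_discr, Int.natAbs_one]
  rw [hQ, Nat.cast_one, Real.log_one, mul_zero, zero_add] at h0
  set e := IsCyclotomicExtension.Rat.galEquivZMod n K
  have hmap : ∀ (S : Finset (K ≃ₐ[ℚ] K)) (T : Finset (ZMod n)ˣ), (∀ σ, σ ∈ S ↔ e σ ∈ T) →
      ∑ σ ∈ S, rootLog n ((e σ : ZMod n) - 1) = ∑ g ∈ T, rootLog n ((g : ZMod n) - 1) := fun S T hST =>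
    Finset.sum_bij (fun σ _ => e σ) (fun σ hσ => (hST σ).mp hσ) (fun _ _ _ _ h => e.injective h)
      (fun g hg => ⟨e.symm g, (hST _).mpr (by rwa [e.apply_symm_apply]), e.apply_symm_apply g⟩) fun _ _ => rfl
  rw [hmap _ (Finset.univ.filter fun g => g ∈ fieldUnits n K F ∧ g ≠ 1) fun σ => by
    simp only [Finset.mem_filter, Finset.mem_univ, true_and]
    rw [fieldUnits, Subgroup.mem_map_equiv, MulEquiv.symm_apply_apply, Ne, Ne, ← e.map_eq_one_iff]] at h1
  rw [hmap _ (Finset.univ.filter fun g => g ≠ 1) fun σ => by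
    simp only [Finset.mem_filter, Finset.mem_univ, true_and]
    rw [IntermediateField.fixingSubgroup_bot, Ne, Ne, ← e.map_eq_one_iff]
    simp] at h0
  rw [card_fieldUnits]
  have h2 := Finset.sum_filter_add_sum_filter_not (Finset.univ.filter fun g : (ZMod n)ˣ => g ≠ 1)
    (· ∈ fieldUnits n K F) (fun g => rootLog n ((g : ZMod n) - 1))
  rw [Finset.filter_filter, Finset.filter_filter] at h2
  rw [Finset.filter_congr (q := fun g => g ∈ fieldUnits n K F ∧ g ≠ 1) fun g _ => and_comm,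
    Finset.filter_congr (s := Finset.univ) (p := fun g => g ≠ 1 ∧ g ∉ fieldUnits n K F)
      (q := fun g => g ∉ fieldUnits n K F) fun g _ =>
      ⟨fun h => h.2, fun h => ⟨fun h' => h (h' ▸ Subgroup.one_mem _), h⟩⟩] at h2
  linarith

end FA.ConductorDiscr
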