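import Mathlib.Analysis.SpecialFunctions.Complex.CircleAddChar
import Mathlib.NumberTheory.ArithmeticFunction.VonMangoldt
import Mathlib.RingTheory.Polynomial.Cyclotomic.Eval

/-!
# The logarithms of the distances from `1` of the roots of unity

For `x ≠ 0` in `ℤ/n` the sum over `u ∈ (ℤ/n)ˣ` of `log ‖1 - e(u x)‖` is the sum of `Λ(m) φ(n/m)` over the
divisors `m` of `n` with `m x = 0`.
-/

set_option autoImplicit false

noncomputable section

open ZMod Polynomial ArithmeticFunction
open scoped ArithmeticFunction Classical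

namespace FA.ConductorDiscr

variable (n : ℕ) [NeZero n]

/-- The sum over the units. -/
def rootLog (x : ZMod n) : ℝ := ∑ u : (ZMod n)ˣ, Real.log ‖1 - stdAddChar ((u : ZMod n) * x)‖

/-- The weight of an element. -/
def divWeight (x : ZMod n) : ℝ :=
  ∑ m ∈ n.divisors.filter (fun m : ℕ => (m : ZMod n) * x = 0), Λ m * (n / m).totient

omit [NeZero n] in
theorem divWeight_eq (x : ZMod n) :
    divWeight n x = ∑ m ∈ n.divisors.filter (fun m : ℕ => addOrderOf x ∣ m), Λ m * (n / m).totient := by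
  refine Finset.sum_congr (Finset.filter_congr fun m _ => ?_) fun _ _ => rfl
  rw [addOrderOf_dvd_iff_nsmul_eq_zero, nsmul_eq_mul]

/-- `log |Φ_d(1)| = Λ(d)`. -/
theorem log_eval_one_cyclotomic {d : ℕ} (hd : 1 < d) :
    Real.log ‖eval 1 (cyclotomic d ℂ)‖ = Λ d := by
  by_cases h : IsPrimePow d
  · obtain ⟨p, k, hp, hk, rfl⟩ := (isPrimePow_nat_iff d).mp h
    have := Fact.mk hp
    obtain ⟨j, rfl⟩ : ∃ j, k = j + 1 := ⟨k - 1, by omega⟩
    rw [eval_one_cyclotomic_prime_pow, vonMangoldt_apply_pow j.succ_ne_zero, vonMangoldt_apply_prime hp,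
      Complex.norm_natCast]
  · rw [eval_one_cyclotomic_not_prime_pow fun {p} hp k e => ?_, vonMangoldt_eq_zero_iff.mpr h, norm_one,
      Real.log_one]
    rcases Nat.eq_zero_or_pos k with rfl | hk
    · simp at e; omega
    · exact h (e ▸ (hp.isPrimePow.pow hk.ne'))

/-- The sum over the units at a root of exact order `d`. -/
theorem sum_log_pow_eq {d : ℕ} [NeZero d] {η : ℂ} (hη : IsPrimitiveRoot η d) (hd : 1 < d) :
    ∑ v : (ZMod d)ˣ, Real.log ‖1 - η ^ (v : ZMod d).val‖ = Λ d := by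
  rw [← log_eval_one_cyclotomic hd, cyclotomic_eq_prod_X_sub_primitiveRoots hη, eval_prod, norm_prod,
    Real.log_prod]
  · simp only [eval_sub, eval_X, eval_C]
    refine Finset.sum_bij (fun v _ => η ^ (v : ZMod d).val)
      (fun v _ => (mem_primitiveRoots (NeZero.pos d)).mpr (hη.pow_of_coprime _ (ZMod.val_coe_unit_coprime v)))
      (fun v _ w _ e => Units.ext (ZMod.val_injective d (hη.pow_inj (ZMod.val_lt _) (ZMod.val_lt _) e)))
      (fun z hz => ?_) fun _ _ => rfl
    obtain ⟨i, hi, hco, rfl⟩ :=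
      (hη.isPrimitiveRoot_iff).mp ((mem_primitiveRoots (NeZero.pos d)).mp hz)
    exact ⟨ZMod.unitOfCoprime i hco, Finset.mem_univ _, by
      rw [ZMod.coe_unitOfCoprime, ZMod.val_natCast, Nat.mod_eq_of_lt hi]⟩
  · intro z hz
    rw [eval_sub, eval_X, eval_C, norm_ne_zero_iff, sub_ne_zero]
    intro e
    rw [← e] at hz
    exact absurd (((mem_primitiveRoots (NeZero.pos d)).mp hz).eq_orderOf.trans orderOf_one) (by omega)

/-- The divisors above a prime power. -/
theorem sum_divisors_above {d : ℕ} (hdn : d ∣ n) (hd : 1 < d) :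
    ∑ m ∈ n.divisors.filter (d ∣ ·), Λ m * (n / m).totient * (d.totient : ℝ) = Λ d * n.totient := by
  by_cases hd' : IsPrimePow d
  · obtain ⟨p, b, hp, hb, rfl⟩ := (isPrimePow_nat_iff d).mp hd'
    obtain ⟨a, n', hn', hn⟩ := Nat.exists_eq_pow_mul_and_not_dvd (NeZero.ne n) p hp.ne_one
    have hco : ∀ i, (p ^ i).Coprime n' := fun i => Nat.Coprime.pow_left _ (hp.coprime_iff_not_dvd.mpr hn')
    have hba : b ≤ a := by
      have h : p ^ b ∣ p ^ a := (Nat.Coprime.dvd_mul_right (hco b)).mp (hn ▸ hdn)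
      exact (Nat.pow_dvd_pow_iff_le_right hp.one_lt).mp h
    have hL : Λ (p ^ b) = Real.log p := by rw [vonMangoldt_apply_pow hb.ne', vonMangoldt_apply_prime hp]
    have hset : (n.divisors.filter (p ^ b ∣ ·)).filter IsPrimePow =
        (Finset.Icc b a).map ⟨fun j => p ^ j, Nat.pow_right_injective hp.two_le⟩ := by
      ext m
      simp only [Finset.mem_filter, Nat.mem_divisors, Finset.mem_map, Finset.mem_Icc,
        Function.Embedding.coeFn_mk]
      constructor
      · rintro ⟨⟨⟨hmn, -⟩, hbm⟩, hm⟩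
        obtain ⟨q, j, hq, hj, rfl⟩ := (isPrimePow_nat_iff m).mp hm
        obtain rfl : p = q := (Nat.prime_dvd_prime_iff_eq hp hq).mp
          (hp.dvd_of_dvd_pow ((dvd_pow_self p hb.ne').trans hbm))
        exact ⟨j, ⟨(Nat.pow_dvd_pow_iff_le_right hp.one_lt).mp hbm,
          (Nat.pow_dvd_pow_iff_le_right hp.one_lt).mp ((Nat.Coprime.dvd_mul_right (hco j)).mp (hn ▸ hmn))⟩, rfl⟩
      · rintro ⟨j, ⟨hj1, hj2⟩, rfl⟩
        exact ⟨⟨⟨hn ▸ dvd_mul_of_dvd_left (pow_dvd_pow p hj2) _, NeZero.ne n⟩, pow_dvd_pow p hj1⟩,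
          hp.isPrimePow.pow (by omega)⟩
    rw [← Finset.sum_filter_of_ne (p := IsPrimePow) (fun m _ h => vonMangoldt_ne_zero_iff.mp fun e => h (by
      rw [e, zero_mul, zero_mul])), hset, Finset.sum_map]
    simp only [Function.Embedding.coeFn_mk]
    have hterm : ∀ j ∈ Finset.Icc b a, Λ (p ^ j) * ((n / p ^ j).totient : ℝ) * ((p ^ b).totient : ℝ) =
        Real.log p * n'.totient * (p ^ b).totient * (p ^ (a - j)).totient := fun j hj => by
      obtain ⟨hj1, hj2⟩ := Finset.mem_Icc.mp hj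
      have e : n / p ^ j = p ^ (a - j) * n' := by
        rw [hn, Nat.mul_comm (p ^ a), Nat.mul_div_assoc _ (pow_dvd_pow p hj2), Nat.pow_div hj2 hp.pos, mul_comm]
      rw [vonMangoldt_apply_pow (by omega), vonMangoldt_apply_prime hp, e, Nat.totient_mul (hco _)]
      push_cast; ring
    rw [Finset.sum_congr rfl hterm, ← Finset.mul_sum, hL, hn, Nat.totient_mul (hco a)]
    have hsum : ∑ j ∈ Finset.Icc b a, (p ^ (a - j)).totient = p ^ (a - b) := by
      have h := Nat.sum_totient (p ^ (a - b))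
      rw [Nat.sum_divisors_prime_pow hp] at h
      refine Eq.trans ?_ h
      refine Finset.sum_nbij' (fun j => a - j) (fun i => a - i) ?_ ?_ ?_ ?_ fun _ _ => rfl
      all_goals intro j hj
      all_goals simp only [Finset.mem_Icc,
        Finset.mem_range] at hj ⊢
      all_goals omega
    have hphi : (p ^ b).totient * p ^ (a - b) = (p ^ a).totient := by
      rw [Nat.totient_prime_pow hp hb, Nat.totient_prime_pow hp (by omega), mul_right_comm, ← pow_add,
        show b - 1 + (a - b) = a - 1 by omega]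
    have hsum' : ∑ j ∈ Finset.Icc b a, ((p ^ (a - j)).totient : ℝ) = ((p ^ (a - b) : ℕ) : ℝ) := by
      exact_mod_cast hsum
    rw [hsum', Nat.cast_mul, ← hphi, Nat.cast_mul]
    ring
  · rw [vonMangoldt_eq_zero_iff.mpr hd', zero_mul]
    refine Finset.sum_eq_zero fun m hm => ?_
    obtain ⟨hm1, hm2⟩ := Finset.mem_filter.mp hm
    rw [vonMangoldt_eq_zero_iff.mpr fun h => hd' (h.dvd hm2 (by omega)), zero_mul, zero_mul]

/-- **The sum over the units is the weight.** -/
theorem rootLog_eq_divWeight {x : ZMod n} (hx : x ≠ 0) : rootLog n x = divWeight n x := by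
  set d := addOrderOf x with hd_def
  have hdn : d ∣ n := by
    rw [hd_def, addOrderOf_dvd_iff_nsmul_eq_zero, nsmul_eq_mul, ZMod.natCast_self, zero_mul]
  have : NeZero d := ⟨(addOrderOf_pos x).ne'⟩
  have hd : 1 < d := by
    have h0 := addOrderOf_pos x
    have h1 : d ≠ 1 := fun e => hx (AddMonoid.addOrderOf_eq_one_iff.mp e)
    omega
  set η : ℂ := stdAddChar x with hη_def
  have hη : IsPrimitiveRoot η d := by
    refine IsPrimitiveRoot.iff_orderOf.mpr (orderOf_eq_iff (NeZero.pos d) |>.mpr ⟨?_, fun m hm hm0 e => ?_⟩)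
    · rw [hη_def, ← AddChar.map_nsmul_eq_pow, addOrderOf_nsmul_eq_zero, AddChar.map_zero_eq_one]
    · rw [hη_def, ← AddChar.map_nsmul_eq_pow, ← (stdAddChar (N := n)).map_zero_eq_one] at e
      exact absurd (Nat.le_of_dvd hm0 (addOrderOf_dvd_of_nsmul_eq_zero (injective_stdAddChar e))) (by omega)
  have hterm : ∀ u : (ZMod n)ˣ, stdAddChar ((u : ZMod n) * x) =
      η ^ ((ZMod.unitsMap hdn u : (ZMod d)ˣ) : ZMod d).val := fun u => by
    rw [show (u : ZMod n) * x = (u : ZMod n).val • x by rw [nsmul_eq_mul, ZMod.natCast_zmod_val],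
      AddChar.map_nsmul_eq_pow, ← hη_def, pow_eq_pow_mod _ hη.pow_eq_one, ZMod.unitsMap_val,
      ZMod.cast_eq_val, ZMod.val_natCast]
  have hsurj := ZMod.unitsMap_surjective hdn
  have hfib : ∀ v : (ZMod d)ˣ, (Finset.univ.filter fun u => ZMod.unitsMap hdn u = v).card =
      Nat.card (ZMod.unitsMap hdn).ker := fun v => by
    obtain ⟨u₀, rfl⟩ := hsurj v
    rw [Nat.card_eq_fintype_card, ← Finset.card_univ]
    refine Finset.card_bij (fun u hu => ⟨u₀⁻¹ * u, MonoidHom.mem_ker.mpr (by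
      rw [map_mul, map_inv, (Finset.mem_filter.mp hu).2, inv_mul_cancel])⟩) (fun _ _ => Finset.mem_univ _)
      (fun _ _ _ _ e => mul_left_cancel (congrArg Subtype.val e)) fun w _ => ⟨u₀ * w.1, ?_, ?_⟩
    · exact Finset.mem_filter.mpr ⟨Finset.mem_univ _, by rw [map_mul, MonoidHom.mem_ker.mp w.2, mul_one]⟩
    · exact Subtype.ext (inv_mul_cancel_left _ _)
  have hker : Nat.card (ZMod.unitsMap hdn).ker * d.totient = n.totient := by
    rw [← ZMod.card_units_eq_totient d, ← ZMod.card_units_eq_totient n, ← Nat.card_eq_fintype_card,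
      ← Nat.card_eq_fintype_card, ← Subgroup.card_mul_index (ZMod.unitsMap hdn).ker, Subgroup.index_ker,
      MonoidHom.range_eq_top.mpr hsurj, Subgroup.card_top]
  have h1 : rootLog n x = (Nat.card (ZMod.unitsMap hdn).ker : ℝ) * Λ d := by
    rw [rootLog, ← sum_log_pow_eq hη hd, Finset.mul_sum,
      ← Finset.sum_fiberwise Finset.univ (ZMod.unitsMap hdn)]
    refine Finset.sum_congr rfl fun v _ => ?_
    rw [← hfib v, ← nsmul_eq_mul, ← Finset.sum_const]
    refine Finset.sum_congr rfl fun u hu => ?_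
    rw [hterm u, (Finset.mem_filter.mp hu).2]
  have h2 : divWeight n x * d.totient = Λ d * n.totient := by
    rw [divWeight_eq, Finset.sum_mul]
    exact sum_divisors_above n hdn hd
  refine mul_right_cancel₀ (b := (d.totient : ℝ)) (by exact_mod_cast (Nat.totient_pos.mpr (NeZero.pos d)).ne') ?_
  rw [h2, h1, ← hker, Nat.cast_mul]
  ring

end FA.ConductorDiscr
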